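import Mathlib
import Fermat.Agent.LT.T6.H680.ArchConvSpec
import Fermat.Agent.LT.T6.H830.HCClosed3

/-!
# Row LT, tower T6, station T6.20x, LEAF X.2 `AbelConvCC680` (helper323), OFF-MAIN

    abelConvCC323 : H680.AbelConvCC680        (VERBATIM, UNCONDITIONAL)

The `N`-integral of a convolution on `GL₂(ℂ)`: for a Haar measure `μ'` and bi-`U(2)`-invariant
test functions `φ`, `ψ`

    N(φ ⋆ ψ)(v) = κ ∫_{ℝ²} N(φ)(u) N(ψ)(v - u) du,     κ = the Iwasawa constant of `μ'`.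

Proof.  `y ↦ φ(y) ψ(y⁻¹ z)` is continuous, compactly supported, right-`U(2)`-invariant: the CLOSED
Iwasawa integration formula `H830.iwasawaIntCC830`.  Group law of the coordinates
(`bC_mul323`), `(ζ, r, w) ↦ bC ζ r w` is continuous and proper (`isCompact_preimage_bP323`),
Fubini for continuous functions with compact support, translation invariance of `dt`.
No hole, nothing assumed.  ADDITIVE (suffix `323`).
-/

set_option autoImplicit false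

open MeasureTheory
open scoped Matrix

noncomputable section

namespace Fermat.Agent.LT.T6.H323

open Fermat.Agent.LT.T6 Fermat.Agent.LT.T6.H830 Fermat.Agent.LT.T6.H680

/-! ## 1. The coordinates -/

/-- The coordinates `(ζ, r, w) ↦ bC ζ r w` on `(ℝ × ℝ) × ℂ`. -/
def bP323 (p : (ℝ × ℝ) × ℂ) : GL (Fin 2) ℂ := bC p.1.1 p.1.2 p.2

theorem bC_mul323 (ζ r ζ' r' : ℝ) (w w' : ℂ) :
    bC ζ r w * bC ζ' r' w' = bC (ζ + ζ') (r + r') (w' + w * ((Real.exp (-r') : ℝ) : ℂ)) := by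
  apply Units.ext
  rw [Units.val_mul, coe_bC830, coe_bC830, coe_bC830]
  have e1 : Real.exp ((ζ + ζ' + (r + r')) / 2) = Real.exp ((ζ + r) / 2) * Real.exp ((ζ' + r') / 2) := by
    rw [← Real.exp_add]; congr 1; ring
  have e2 : Real.exp ((ζ + ζ' - (r + r')) / 2) = Real.exp ((ζ - r) / 2) * Real.exp ((ζ' - r') / 2) := by
    rw [← Real.exp_add]; congr 1; ring
  have e3 : Real.exp ((ζ' - r') / 2) = Real.exp ((ζ' + r') / 2) * Real.exp (-r') := by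
    rw [← Real.exp_add]; congr 1; ring
  refine Matrix.ext fun i j => ?_
  fin_cases i <;> fin_cases j
  · simp [Matrix.mul_apply, Fin.sum_univ_two, e1]
  · simp only [Matrix.mul_apply, Fin.sum_univ_two, e1, e3]
    simp
    ring
  · simp [Matrix.mul_apply, Fin.sum_univ_two]
  · simp [Matrix.mul_apply, Fin.sum_univ_two, e2]

theorem bC_zero323 : bC 0 0 0 = 1 := by
  apply Units.ext
  rw [coe_bC830]
  refine Matrix.ext fun i j => ?_
  fin_cases i <;> fin_cases j <;> simp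

theorem bC_inv323 (ζ r : ℝ) (w : ℂ) :
    (bC ζ r w)⁻¹ = bC (-ζ) (-r) (-(w * ((Real.exp r : ℝ) : ℂ))) := by
  apply inv_eq_of_mul_eq_one_right
  rw [bC_mul323]
  have h : (-(w * ((Real.exp r : ℝ) : ℂ)) + w * ((Real.exp (- -r) : ℝ) : ℂ)) = 0 := by
    rw [neg_neg]; ring
  rw [h, add_neg_cancel, add_neg_cancel, bC_zero323]

/-- `(bC ζ r w)⁻¹ · bC ζ₀ r₀ t = bC (ζ₀ - ζ) (r₀ - r) (t - w e^{r - r₀})`. -/
theorem bC_inv_mul323 (ζ r ζ₀ r₀ : ℝ) (w t : ℂ) :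
    (bC ζ r w)⁻¹ * bC ζ₀ r₀ t
      = bC (ζ₀ - ζ) (r₀ - r) (t - w * ((Real.exp (r - r₀) : ℝ) : ℂ)) := by
  rw [inv_mul_eq_iff_eq_mul, bC_mul323]
  have h1 : ζ + (ζ₀ - ζ) = ζ₀ := by ring
  have h2 : r + (r₀ - r) = r₀ := by ring
  have h3 : (t - w * ((Real.exp (r - r₀) : ℝ) : ℂ)) + w * ((Real.exp (-(r₀ - r)) : ℝ) : ℂ) = t := by
    rw [neg_sub]; ring
  rw [h1, h2, h3]

theorem continuous_coe_bP323 :
    Continuous fun p : (ℝ × ℝ) × ℂ => ((bP323 p : GL (Fin 2) ℂ) : Matrix (Fin 2) (Fin 2) ℂ) := by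
  refine continuous_matrix fun i j => ?_
  fin_cases i <;> fin_cases j <;> simp [bP323, coe_bC830] <;> fun_prop

theorem continuous_bP323 : Continuous bP323 := by
  rw [Units.continuous_iff]
  refine ⟨continuous_coe_bP323, ?_⟩
  have h : (fun p : (ℝ × ℝ) × ℂ => (((bP323 p)⁻¹ : GL (Fin 2) ℂ) : Matrix (Fin 2) (Fin 2) ℂ))
      = (fun p : (ℝ × ℝ) × ℂ => ((bP323 p : GL (Fin 2) ℂ) : Matrix (Fin 2) (Fin 2) ℂ)) ∘
        fun p : (ℝ × ℝ) × ℂ => ((-p.1.1, -p.1.2), -(p.2 * ((Real.exp p.1.2 : ℝ) : ℂ))) := by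
    funext p
    simp only [bP323, Function.comp_apply, bC_inv323]
  change Continuous fun p : (ℝ × ℝ) × ℂ =>
    (((bP323 p)⁻¹ : GL (Fin 2) ℂ) : Matrix (Fin 2) (Fin 2) ℂ)
  rw [h]
  refine continuous_coe_bP323.comp ?_
  fun_prop

/-! ## 2. The coordinates are proper -/

/-- A left inverse of the coordinates (continuous on the upper triangular matrices). -/
def lP323 (g : GL (Fin 2) ℂ) : (ℝ × ℝ) × ℂ :=
  ((Real.log ‖(g : Matrix (Fin 2) (Fin 2) ℂ) 0 0‖ + Real.log ‖(g : Matrix (Fin 2) (Fin 2) ℂ) 1 1‖,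
    Real.log ‖(g : Matrix (Fin 2) (Fin 2) ℂ) 0 0‖ - Real.log ‖(g : Matrix (Fin 2) (Fin 2) ℂ) 1 1‖),
    (g : Matrix (Fin 2) (Fin 2) ℂ) 0 1 / (g : Matrix (Fin 2) (Fin 2) ℂ) 0 0)

theorem lP_bP323 (p : (ℝ × ℝ) × ℂ) : lP323 (bP323 p) = p := by
  obtain ⟨⟨ζ, r⟩, w⟩ := p
  have h0 : ((Real.exp ((ζ + r) / 2) : ℝ) : ℂ) ≠ 0 :=
    Complex.ofReal_ne_zero.2 (Real.exp_ne_zero _)
  simp only [lP323, bP323, coe_bC830]
  refine Prod.ext (Prod.ext ?_ ?_) ?_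
  · simp only [Matrix.of_apply, Matrix.cons_val', Matrix.cons_val_zero, Matrix.cons_val_one,
      Matrix.cons_val_fin_one]
    rw [Complex.norm_real, Complex.norm_real, Real.norm_of_nonneg (Real.exp_pos _).le,
      Real.norm_of_nonneg (Real.exp_pos _).le, Real.log_exp, Real.log_exp]
    ring
  · simp only [Matrix.of_apply, Matrix.cons_val', Matrix.cons_val_zero, Matrix.cons_val_one,
      Matrix.cons_val_fin_one]
    rw [Complex.norm_real, Complex.norm_real, Real.norm_of_nonneg (Real.exp_pos _).le,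
      Real.norm_of_nonneg (Real.exp_pos _).le, Real.log_exp, Real.log_exp]
    ring
  · simp only [Matrix.of_apply, Matrix.cons_val', Matrix.cons_val_zero, Matrix.cons_val_one,
      Matrix.cons_val_fin_one]
    field_simp

theorem continuous_entry323 (i j : Fin 2) :
    Continuous fun g : GL (Fin 2) ℂ => (g : Matrix (Fin 2) (Fin 2) ℂ) i j := by
  have h1 : Continuous fun g : GL (Fin 2) ℂ => (g : Matrix (Fin 2) (Fin 2) ℂ) :=
    Units.continuous_val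
  exact h1.matrix_elem i j

theorem isClosed_tri323 : IsClosed {g : GL (Fin 2) ℂ | (g : Matrix (Fin 2) (Fin 2) ℂ) 1 0 = 0} :=
  isClosed_eq (continuous_entry323 1 0) continuous_const

theorem tri_ne_zero323 {g : GL (Fin 2) ℂ} (hg : (g : Matrix (Fin 2) (Fin 2) ℂ) 1 0 = 0) :
    (g : Matrix (Fin 2) (Fin 2) ℂ) 0 0 ≠ 0 ∧ (g : Matrix (Fin 2) (Fin 2) ℂ) 1 1 ≠ 0 := by
  have hdet : (g : Matrix (Fin 2) (Fin 2) ℂ).det ≠ 0 := by
    have := (Matrix.GeneralLinearGroup.det g).ne_zero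
    simpa using this
  rw [Matrix.det_fin_two, hg, mul_zero, sub_zero] at hdet
  exact ⟨left_ne_zero_of_mul hdet, right_ne_zero_of_mul hdet⟩

theorem continuousOn_lP323 :
    ContinuousOn lP323 {g : GL (Fin 2) ℂ | (g : Matrix (Fin 2) (Fin 2) ℂ) 1 0 = 0} := by
  have hlog : ∀ i : Fin 2, (∀ g : GL (Fin 2) ℂ, (g : Matrix (Fin 2) (Fin 2) ℂ) 1 0 = 0 →
      (g : Matrix (Fin 2) (Fin 2) ℂ) i i ≠ 0) →
      ContinuousOn (fun g : GL (Fin 2) ℂ => Real.log ‖(g : Matrix (Fin 2) (Fin 2) ℂ) i i‖)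
        {g : GL (Fin 2) ℂ | (g : Matrix (Fin 2) (Fin 2) ℂ) 1 0 = 0} := by
    intro i hi
    refine ContinuousOn.log (continuous_entry323 i i).norm.continuousOn fun g hg => ?_
    exact norm_ne_zero_iff.2 (hi g hg)
  have h00 := hlog 0 fun g hg => (tri_ne_zero323 hg).1
  have h11 := hlog 1 fun g hg => (tri_ne_zero323 hg).2
  refine ContinuousOn.prodMk (ContinuousOn.prodMk (h00.add h11) (h00.sub h11)) ?_
  exact ContinuousOn.div (continuous_entry323 0 1).continuousOn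
    (continuous_entry323 0 0).continuousOn fun g hg => (tri_ne_zero323 hg).1

theorem bP_tri323 (p : (ℝ × ℝ) × ℂ) : ((bP323 p : GL (Fin 2) ℂ) : Matrix (Fin 2) (Fin 2) ℂ) 1 0 = 0 := by
  simp [bP323, coe_bC830]

/-- THE COORDINATES ARE PROPER: the preimage of a compact set is compact. -/
theorem isCompact_preimage_bP323 {C : Set (GL (Fin 2) ℂ)} (hC : IsCompact C) :
    IsCompact (bP323 ⁻¹' C) := by
  have hC' : IsCompact (C ∩ {g : GL (Fin 2) ℂ | (g : Matrix (Fin 2) (Fin 2) ℂ) 1 0 = 0}) :=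
    hC.inter_right isClosed_tri323
  have himg : IsCompact (lP323 '' (C ∩ {g : GL (Fin 2) ℂ | (g : Matrix (Fin 2) (Fin 2) ℂ) 1 0 = 0})) :=
    hC'.image_of_continuousOn (continuousOn_lP323.mono Set.inter_subset_right)
  refine himg.of_isClosed_subset (hC.isClosed.preimage continuous_bP323) fun p hp => ?_
  exact ⟨bP323 p, ⟨hp, bP_tri323 p⟩, lP_bP323 p⟩

theorem hasCompactSupport_comp_bP323 {φ : GL (Fin 2) ℂ → ℂ} (hφ : HasCompactSupport φ) :
    HasCompactSupport fun p : (ℝ × ℝ) × ℂ => φ (bP323 p) := by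
  refine HasCompactSupport.intro (isCompact_preimage_bP323 hφ) fun p hp => ?_
  exact image_eq_zero_of_notMem_tsupport hp

/-! ## 3. The integrand in four variables -/

theorem inU2_inv323 {k : GL (Fin 2) ℂ} (hk : InU2 k) : InU2 k⁻¹ := by
  unfold InU2 at hk ⊢
  have h2 : ((k⁻¹ : GL (Fin 2) ℂ) : Matrix (Fin 2) (Fin 2) ℂ) * (k : Matrix (Fin 2) (Fin 2) ℂ)
      = 1 := by
    rw [← Units.val_mul, inv_mul_cancel, Units.val_one]
  have h1 : ((k⁻¹ : GL (Fin 2) ℂ) : Matrix (Fin 2) (Fin 2) ℂ)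
      = (k : Matrix (Fin 2) (Fin 2) ℂ).conjTranspose := by
    calc ((k⁻¹ : GL (Fin 2) ℂ) : Matrix (Fin 2) (Fin 2) ℂ)
        = ((k⁻¹ : GL (Fin 2) ℂ) : Matrix (Fin 2) (Fin 2) ℂ)
            * ((k : Matrix (Fin 2) (Fin 2) ℂ) * (k : Matrix (Fin 2) (Fin 2) ℂ).conjTranspose) := by
          rw [hk, mul_one]
      _ = (k : Matrix (Fin 2) (Fin 2) ℂ).conjTranspose := by
          rw [← mul_assoc, h2, one_mul]
  rw [h1, Matrix.conjTranspose_conjTranspose]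
  exact mul_eq_one_comm.mp hk

/-- The integrand `φ(b(p)) ψ(b(p)⁻¹ b(v, t))` in the coordinates `(p, t)`. -/
def hFun323 (φ ψ : GL (Fin 2) ℂ → ℂ) (v : ℝ × ℝ) (x : ((ℝ × ℝ) × ℂ) × ℂ) : ℂ :=
  φ (bP323 x.1) *
    ψ (bP323 (v - x.1.1, x.2 - x.1.2 * ((Real.exp (x.1.1.2 - v.2) : ℝ) : ℂ)))

theorem hFun_eq323 (φ ψ : GL (Fin 2) ℂ → ℂ) (v : ℝ × ℝ) (ζ r : ℝ) (w t : ℂ) :
    hFun323 φ ψ v (((ζ, r), w), t) = φ (bC ζ r w) * ψ ((bC ζ r w)⁻¹ * bC v.1 v.2 t) := by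
  rw [bC_inv_mul323]
  rfl

theorem continuous_hFun323 {φ ψ : GL (Fin 2) ℂ → ℂ} (hφ : Continuous φ) (hψ : Continuous ψ)
    (v : ℝ × ℝ) : Continuous (hFun323 φ ψ v) := by
  unfold hFun323
  refine (hφ.comp (continuous_bP323.comp continuous_fst)).mul
    (hψ.comp (continuous_bP323.comp ?_))
  fun_prop

theorem hasCompactSupport_hFun323 {φ ψ : GL (Fin 2) ℂ → ℂ} (hφ : HasCompactSupport φ)
    (hψ : HasCompactSupport ψ) (v : ℝ × ℝ) : HasCompactSupport (hFun323 φ ψ v) := by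
  have hK₁ : IsCompact (bP323 ⁻¹' tsupport φ) := isCompact_preimage_bP323 hφ
  have hK₂ : IsCompact (bP323 ⁻¹' tsupport ψ) := isCompact_preimage_bP323 hψ
  let Ξ : ((ℝ × ℝ) × ℂ) × ((ℝ × ℝ) × ℂ) → ((ℝ × ℝ) × ℂ) × ℂ :=
    fun x => (x.1, x.2.2 + x.1.2 * ((Real.exp (x.1.1.2 - v.2) : ℝ) : ℂ))
  have hΞ : Continuous Ξ := by fun_prop
  have hcomp : IsCompact (Ξ '' ((bP323 ⁻¹' tsupport φ) ×ˢ (bP323 ⁻¹' tsupport ψ))) :=
    (hK₁.prod hK₂).image hΞ
  refine HasCompactSupport.intro hcomp fun x hx => ?_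
  by_contra hne
  unfold hFun323 at hne
  have h1 : φ (bP323 x.1) ≠ 0 := left_ne_zero_of_mul hne
  have h2 : ψ (bP323 (v - x.1.1, x.2 - x.1.2 * ((Real.exp (x.1.1.2 - v.2) : ℝ) : ℂ))) ≠ 0 :=
    right_ne_zero_of_mul hne
  apply hx
  refine ⟨(x.1, (v - x.1.1, x.2 - x.1.2 * ((Real.exp (x.1.1.2 - v.2) : ℝ) : ℂ))),
    ⟨subset_tsupport _ h1, subset_tsupport _ h2⟩, ?_⟩
  refine Prod.ext rfl ?_
  simp [Ξ]

theorem integrable_hFun323 {φ ψ : GL (Fin 2) ℂ → ℂ} (hφ : IsArchTestC φ) (hψ : IsArchTestC ψ)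
    (v : ℝ × ℝ) : Integrable (hFun323 φ ψ v) :=
  (continuous_hFun323 hφ.cont hψ.cont v).integrable_of_hasCompactSupport
    (hasCompactSupport_hFun323 hφ.supp hψ.supp v)

theorem integrable_hFun_slice323 {φ ψ : GL (Fin 2) ℂ → ℂ} (hφ : IsArchTestC φ)
    (hψ : IsArchTestC ψ) (v : ℝ × ℝ) (t : ℂ) :
    Integrable fun p : (ℝ × ℝ) × ℂ => hFun323 φ ψ v (p, t) := by
  have hc : Continuous fun p : (ℝ × ℝ) × ℂ => hFun323 φ ψ v (p, t) :=
    (continuous_hFun323 hφ.cont hψ.cont v).comp (continuous_id.prodMk continuous_const)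
  refine hc.integrable_of_hasCompactSupport ?_
  refine HasCompactSupport.intro (isCompact_preimage_bP323 hφ.supp) fun p hp => ?_
  unfold hFun323
  rw [image_eq_zero_of_notMem_tsupport (f := φ) hp, zero_mul]

/-! ## 4. Fubini -/

theorem integral_triple323 (f : (ℝ × ℝ) × ℂ → ℂ) (hf : Integrable f) :
    ∫ p, f p = ∫ ζ : ℝ, ∫ r : ℝ, ∫ w : ℂ, f ((ζ, r), w) := by
  have h1 : ∫ p, f p = ∫ u : ℝ × ℝ, ∫ w : ℂ, f (u, w) := integral_prod f hf
  have h2 : Integrable (fun u : ℝ × ℝ => ∫ w : ℂ, f (u, w)) := hf.integral_prod_left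
  rw [h1]
  exact integral_prod _ h2

/-! ## 5. The leaf -/

/-- **LEAF X.2 `AbelConvCC680`.** -/
theorem abelConvCC323 : AbelConvCC680 := by
  intro μ' hμ'
  obtain ⟨c, hc, hI⟩ := iwasawaIntCC830 μ' hμ'
  refine ⟨c, hc, fun φ ψ hφ hψ v => ?_⟩
  -- Step A: the Iwasawa formula for `y ↦ φ(y) ψ(y⁻¹ z)`
  have hA : ∀ z : GL (Fin 2) ℂ, convC680 μ' φ ψ z
      = (c : ℂ) * ∫ ζ : ℝ, ∫ r : ℝ, ∫ w : ℂ, φ (bC ζ r w) * ψ ((bC ζ r w)⁻¹ * z) := by
    intro z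
    have hcont : Continuous fun y : GL (Fin 2) ℂ => φ y * ψ (y⁻¹ * z) :=
      hφ.cont.mul (hψ.cont.comp (continuous_inv.mul continuous_const))
    have hsupp : HasCompactSupport fun y : GL (Fin 2) ℂ => φ y * ψ (y⁻¹ * z) :=
      hφ.supp.mul_right
    have hinv : ∀ k g : GL (Fin 2) ℂ, InU2 k →
        (fun y : GL (Fin 2) ℂ => φ y * ψ (y⁻¹ * z)) (g * k)
          = (fun y : GL (Fin 2) ℂ => φ y * ψ (y⁻¹ * z)) g := by
      intro k g hk
      have e : (g * k)⁻¹ * z = k⁻¹ * (g⁻¹ * z) := by rw [mul_inv_rev, mul_assoc]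
      simp only [e, hφ.right k g hk, hψ.left k⁻¹ (g⁻¹ * z) (inU2_inv323 hk)]
    exact hI _ hcont hsupp hinv
  -- Step B: in the coordinates
  have hB : ∀ t : ℂ, convC680 μ' φ ψ (bC v.1 v.2 t)
      = (c : ℂ) * ∫ p : (ℝ × ℝ) × ℂ, hFun323 φ ψ v (p, t) := by
    intro t
    rw [hA, integral_triple323 _ (integrable_hFun_slice323 hφ hψ v t)]
    simp only [hFun_eq323]
  -- Step C: the right-hand side
  have hR : ∀ u : ℝ × ℝ, nIntC680 φ u * nIntC680 ψ (v - u)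
      = ∫ w : ℂ, ∫ t : ℂ, hFun323 φ ψ v ((u, w), t) := by
    intro u
    have h1 : ∀ w : ℂ, ∫ t : ℂ, hFun323 φ ψ v ((u, w), t)
        = φ (bC u.1 u.2 w) * nIntC680 ψ (v - u) := by
      intro w
      have h0 : ∀ t : ℂ, hFun323 φ ψ v ((u, w), t)
          = φ (bC u.1 u.2 w) *
            ψ (bP323 (v - u, t - w * ((Real.exp (u.2 - v.2) : ℝ) : ℂ))) := fun t => rfl
      simp only [h0]
      rw [integral_const_mul]
      congr 1
      exact integral_sub_right_eq_self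
        (fun t : ℂ => ψ (bP323 (v - u, t))) (w * ((Real.exp (u.2 - v.2) : ℝ) : ℂ))
    simp only [h1]
    rw [integral_mul_const]
    rfl
  have hQ : Integrable fun p : (ℝ × ℝ) × ℂ => ∫ t : ℂ, hFun323 φ ψ v (p, t) :=
    (integrable_hFun323 hφ hψ v).integral_prod_left
  calc nIntC680 (convC680 μ' φ ψ) v
      = ∫ t : ℂ, (c : ℂ) * ∫ p : (ℝ × ℝ) × ℂ, hFun323 φ ψ v (p, t) := by
        unfold nIntC680
        simp only [hB]
    _ = (c : ℂ) * ∫ t : ℂ, ∫ p : (ℝ × ℝ) × ℂ, hFun323 φ ψ v (p, t) := integral_const_mul _ _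
    _ = (c : ℂ) * ∫ p : (ℝ × ℝ) × ℂ, ∫ t : ℂ, hFun323 φ ψ v (p, t) := by
        congr 1
        refine (integral_integral_swap (f := fun (p : (ℝ × ℝ) × ℂ) (t : ℂ) =>
          hFun323 φ ψ v (p, t)) ?_).symm
        exact integrable_hFun323 hφ hψ v
    _ = (c : ℂ) * ∫ u : ℝ × ℝ, ∫ w : ℂ, ∫ t : ℂ, hFun323 φ ψ v ((u, w), t) := by
        congr 1
        exact integral_prod _ hQ
    _ = (c : ℂ) * ∫ u : ℝ × ℝ, nIntC680 φ u * nIntC680 ψ (v - u) := by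
        simp only [hR]

end Fermat.Agent.LT.T6.H323

end
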